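import Fermat.Agent.Tate.Package
import Fermat.Agent.HGModule.S30Wiring
import Fermat.Agent.HGModule.S29Wiring
import Fermat.Agent.HGModule.S42Wiring
import Fermat.Agent.HeckeGal.S31FromS30

/-!
# S30, S29, S42, S31 from the equality of genera
-/

set_option autoImplicit false

noncomputable section

namespace Fermat.Agent.Tate

open Fermat.Agent.HGModule Fermat.Agent.HeckeRed

theorem nonempty_module (hG : ∀ (N : ℕ) [NeZero N], GenusEq N) (p : ℕ) [Fact p.Prime] (N : ℕ)
    [NeZero N] (S : Set ℕ) (hS : ∀ q : ℕ, q.Prime → q ∣ N → q ∈ S) :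
    Nonempty (HeckeGaloisModule p N S) :=
  ⟨(jInput N p S hS (frobJ_of_packages (hasPackages_of_genusEq (hG N)))
    (unrJ_of_packages (hasPackages_of_genusEq (hG N)))).toModule⟩

theorem s30 (hG : ∀ (N : ℕ) [NeZero N], GenusEq N) : HGModule.S30Statement :=
  S30_of_modules fun p _ N _ S _ hNS => nonempty_module hG p N (↑S : Set ℕ)
    fun q hq hqN => Finset.mem_coe.mpr (hNS q hq hqN)

theorem s30' (hG : ∀ (N : ℕ) [NeZero N], GenusEq N) : HeckeGal.S30Statement :=
  s30 hG

end Fermat.Agent.Tate
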