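import Fermat.Agent.Tate.JInput
import Fermat.Agent.HeckeRed.Package

/-!
# From the specialization package to the Frobenius relation on torsion
-/

set_option autoImplicit false

noncomputable section

namespace Fermat.Agent.Tate

open ModularCurve Fermat.Agent.HeckeRed

/-- specialization packages at all good primes -/
def HasPackages (N : ℕ) [NeZero N] : Prop :=
  ∀ (ℓ : ℕ) (hℓ : ℓ.Prime), ¬ ℓ ∣ N → ∀ A : ValuationSubring (AlgebraicClosure ℚ),
    A.LiesOverPrime ℓ → Nonempty (SpecPackage N ℓ hℓ A)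

variable {N : ℕ} [NeZero N] {p : ℕ} [hp : Fact p.Prime]

theorem frobJ_of_packages (h : HasPackages N) : FrobJ N p := by
  intro ℓ hℓ hℓN hℓp A hA σ hσ x ⟨n, hn⟩
  obtain ⟨P⟩ := h ℓ hℓ hℓN A hA
  have hnd : ¬ ℓ ∣ p ^ n := fun h =>
    hℓp ((Nat.prime_dvd_prime_iff_eq hℓ hp.out).mp (hℓ.dvd_of_dvd_pow h))
  have hz : σ • (0 : JZero N) = 0 := map_zero (DistribSMul.toAddMonoidHom (JZero N) σ)
  have h1 : ∀ y : JZero N, p ^ n • y = 0 → p ^ n • (σ • y) = 0 := fun y hy => by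
    have : σ • (p ^ n • y) = p ^ n • (σ • y) :=
      map_nsmul (DistribSMul.toAddMonoidHom (JZero N) σ) (p ^ n) y
    rw [← this, hy, hz]
  refine P.tors (p ^ n) hnd _ ?_ ?_
  · rw [nsmul_add, nsmul_sub, h1 _ (h1 x hn), ← map_nsmul, h1 x hn, map_zero, sub_zero, zero_add,
      smul_comm, hn, smul_zero]
  · rw [map_add, map_sub, P.es, map_nsmul, P.frob σ hσ, P.frob σ hσ, P.inv]
    abel

theorem unrJ_of_packages (h : HasPackages N) : UnrJ N p := by
  intro ℓ hℓ hℓN hℓp A hA σ hσ x ⟨n, hn⟩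
  obtain ⟨P⟩ := h ℓ hℓ hℓN A hA
  have hnd : ¬ ℓ ∣ p ^ n := fun h =>
    hℓp ((Nat.prime_dvd_prime_iff_eq hℓ hp.out).mp (hℓ.dvd_of_dvd_pow h))
  have hz : σ • (0 : JZero N) = 0 := map_zero (DistribSMul.toAddMonoidHom (JZero N) σ)
  rw [← sub_eq_zero]
  refine P.tors (p ^ n) hnd _ ?_ ?_
  · have : σ • (p ^ n • x) = p ^ n • (σ • x) :=
      map_nsmul (DistribSMul.toAddMonoidHom (JZero N) σ) (p ^ n) x
    rw [nsmul_sub, ← this, hn, hz, sub_zero]
  · rw [map_sub, P.inertia σ hσ, sub_self]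

theorem hasPackages_of_genusEq (hG : GenusEq N) : HasPackages N :=
  fun _ hℓ hℓN A hA => nonempty_package hG hℓ hℓN A hA

end Fermat.Agent.Tate
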