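import Fermat.Agent.Tate.Input
import Fermat.Agent.TorsCmp.Surj
import Fermat.Agent.GalJ.Equiv
import Fermat.Agent.GalJ.Level
import Fermat.Agent.S21

/-!
# `TateInput` for the Jacobian `J₀(N)`
-/

set_option autoImplicit false

noncomputable section

namespace Fermat.Agent.Tate

open ModularCurve ModularCurve.Period CongruenceSubgroup
open Fermat.Agent.HeckeHom Fermat.Agent.HGModule Fermat.Agent.TorsCmp Fermat.Agent.GalJ

local notation "G" => (AlgebraicClosure ℚ ≃ₐ[ℚ] AlgebraicClosure ℚ)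

theorem es (N : ℕ) [NeZero N] : ES N := Fermat.Agent.S21.result N

/-- The statement needed from the reduction theory of `J₀(N)`: Eichler-Shimura relation. -/
def FrobJ (N : ℕ) [NeZero N] (p : ℕ) : Prop :=
  ∀ (ℓ : ℕ) (hℓ : ℓ.Prime) (_ : ¬ ℓ ∣ N), ℓ ≠ p →
    ∀ A : ValuationSubring (AlgebraicClosure ℚ), A.LiesOverPrime ℓ →
      ∀ σ : G, A.IsFrobeniusAt σ ℓ → ∀ x : JZero N, (∃ n : ℕ, p ^ n • x = 0) →
        σ • σ • x - heckeOperatorBar N ⟨ℓ, hℓ⟩ (σ • x) + ℓ • x = 0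

/-- The statement needed from the reduction theory of `J₀(N)`: unramifiedness. -/
def UnrJ (N : ℕ) [NeZero N] (p : ℕ) : Prop :=
  ∀ q : ℕ, q.Prime → ¬ q ∣ N → q ≠ p →
    ∀ A : ValuationSubring (AlgebraicClosure ℚ), A.LiesOverPrime q →
      ∀ σ ∈ A.inertiaSubgroupIn ℚ, ∀ x : JZero N, (∃ n : ℕ, p ^ n • x = 0) → σ • x = x

/-- the `TateInput` of `J₀(N)` -/
def jInput (N : ℕ) [NeZero N] (p : ℕ) [Fact p.Prime] (S : Set ℕ)
    (hS : ∀ q : ℕ, q.Prime → q ∣ N → q ∈ S) (hfrob : FrobJ N p) (hunr : UnrJ N p) :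
    TateInput p N S where
  hS := hS
  hES := es N
  J := JZero N
  T ℓ hℓ _ := heckeOperatorBar N ⟨ℓ, hℓ⟩
  T_smul ℓ hℓ _ σ x _ := heckeOperatorBar_smul N ⟨ℓ, hℓ⟩ σ x
  C := comparisonJ N p
  hecke ℓ hℓ hℓN _ n x := comparisonJ_hecke N p hℓ hℓN n x _ rfl
  mem_iff := comparisonJ_mem_iff N p
  level x _ := level_JZero N x
  frobenius ℓ hℓ hℓN _ hℓp A hA σ hσ x hx := hfrob ℓ hℓ hℓN hℓp A hA σ hσ x hx
  unramified := hunr

end Fermat.Agent.Tate
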