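import Fermat.Agent.HeckeHom.Theta
import Mathlib.RingTheory.TensorProduct.IsBaseChangeHom

/-!
`R ⊗ Hom_par(Γ, ℤ) ≃ Hom_par(Γ, R)` for torsion free `R`.
-/

set_option autoImplicit false

noncomputable section

namespace Fermat.Agent.Tate

open ModularCurve.Period CongruenceSubgroup
open scoped MatrixGroups TensorProduct

section

variable (R : Type*) [CommRing R] (Γ : Subgroup SL(2, ℤ))

/-- Extension of scalars for parabolic homomorphisms. -/
def castPar : parabolicHoms ℤ Γ ℤ →ₗ[ℤ] parabolicHoms R Γ R where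
  toFun φ := ⟨(Int.castAddHom R).comp (φ : Additive Γ →+ ℤ), fun γ hγ => by
    change ((φ : Additive Γ →+ ℤ) (Additive.ofMul γ) : R) = 0
    rw [φ.2 γ hγ, Int.cast_zero]⟩
  map_add' φ ψ := Subtype.ext (AddMonoidHom.ext fun γ => by
    change (((φ : Additive Γ →+ ℤ) γ + (ψ : Additive Γ →+ ℤ) γ : ℤ) : R) =
      ((φ : Additive Γ →+ ℤ) γ : R) + ((ψ : Additive Γ →+ ℤ) γ : R)
    push_cast
    rfl)
  map_smul' n φ := Subtype.ext (AddMonoidHom.ext fun γ => by
    change ((n • (φ : Additive Γ →+ ℤ) γ : ℤ) : R) = n • ((φ : Additive Γ →+ ℤ) γ : R)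
    rw [smul_eq_mul, Int.cast_mul, zsmul_eq_mul])

theorem castPar_apply (φ : parabolicHoms ℤ Γ ℤ) (γ : Additive Γ) :
    (castPar R Γ φ : Additive Γ →+ R) γ = ((φ : Additive Γ →+ ℤ) γ : R) := rfl

/-- The comparison map. -/
def tensorMap : R ⊗[ℤ] parabolicHoms ℤ Γ ℤ →ₗ[R] parabolicHoms R Γ R :=
  (castPar R Γ).liftBaseChange R

theorem tensorMap_tmul (a : R) (φ : parabolicHoms ℤ Γ ℤ) :
    tensorMap R Γ (a ⊗ₜ φ) = a • castPar R Γ φ := by
  rw [tensorMap, LinearMap.liftBaseChange_tmul]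

variable [IsAddTorsionFree R]

theorem tensorMap_injective : Function.Injective (tensorMap R Γ) := by
  rw [injective_iff_map_eq_zero]
  intro x hx
  obtain ⟨n, r, m, hr, rfl⟩ := Fermat.Agent.HeckeHom.exists_indep_repr x
  have hm : ∀ i, m i = 0 := by
    intro i
    refine Subtype.ext (AddMonoidHom.ext fun γ => ?_)
    have h1 := congrArg (fun φ : parabolicHoms R Γ R => (φ : Additive Γ →+ R) γ) hx
    simp only [map_sum, tensorMap_tmul] at h1
    have h2 : ∑ i, (m i : Additive Γ →+ ℤ) γ • r i = 0 := by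
      rw [← show (((∑ i, r i • castPar R Γ (m i) : parabolicHoms R Γ R) :
        Additive Γ →+ R) γ) = 0 from h1]
      rw [AddSubmonoidClass.coe_finsetSum, AddMonoidHom.finsetSum_apply]
      refine Finset.sum_congr rfl fun i _ => ?_
      change _ = r i • (((m i : Additive Γ →+ ℤ) γ : ℤ) : R)
      rw [zsmul_eq_mul, smul_eq_mul, mul_comm]
    exact (Fintype.linearIndependent_iff.mp hr) _ h2 i
  simp [hm]

theorem tensorMap_surjective [Group.FG Γ] : Function.Surjective (tensorMap R Γ) := by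
  intro ψ
  obtain ⟨n, a, φ, hφ, hsum⟩ := Fermat.Agent.HeckeHom.exists_decomp (ψ : Additive Γ →+ R)
  let φ' : Fin n → parabolicHoms ℤ Γ ℤ := fun i => ⟨φ i, fun γ hγ => hφ _ (ψ.2 γ hγ) i⟩
  refine ⟨∑ i, a i ⊗ₜ φ' i, Subtype.ext (AddMonoidHom.ext fun γ => ?_)⟩
  rw [map_sum, hsum γ, AddSubmonoidClass.coe_finsetSum, AddMonoidHom.finsetSum_apply]
  refine Finset.sum_congr rfl fun i _ => ?_
  rw [tensorMap_tmul]
  change a i • (((φ i) γ : ℤ) : R) = _
  rw [zsmul_eq_mul, smul_eq_mul, mul_comm]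

/-- The comparison isomorphism. -/
def tensorEquiv [Group.FG Γ] : R ⊗[ℤ] parabolicHoms ℤ Γ ℤ ≃ₗ[R] parabolicHoms R Γ R :=
  LinearEquiv.ofBijective (tensorMap R Γ) ⟨tensorMap_injective R Γ, tensorMap_surjective R Γ⟩

theorem tensorEquiv_tmul [Group.FG Γ] (a : R) (φ : parabolicHoms ℤ Γ ℤ) :
    tensorEquiv R Γ (a ⊗ₜ φ) = a • castPar R Γ φ := tensorMap_tmul R Γ a φ

end

end Fermat.Agent.Tate
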