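import Fermat.Agent.Tate.Abs
import Fermat.Agent.Tate.Iso
import Fermat.Agent.HGModule.Basic

/-!
The `HeckeGaloisModule` attached to compatible comparison maps
`J[p ^ n] → Hom(Γ₀(N), ℤ / p ^ n)`.
-/

set_option autoImplicit false

noncomputable section

namespace Fermat.Agent.Tate

open ModularCurve.Period CongruenceSubgroup
open scoped MatrixGroups TensorProduct
open Fermat.Agent.HeckeHom Fermat.Agent.HGModule

local notation "G" => (AlgebraicClosure ℚ ≃ₐ[ℚ] AlgebraicClosure ℚ)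

theorem transport_quad {R V W : Type*} [CommRing R] [AddCommGroup V] [Module R V] [AddCommGroup W]
    [Module R W] (e : V ≃ₗ[R] W) (ρ θ : Module.End R V) (ρ' θ' : Module.End R W)
    (hρ : ∀ x, e (ρ x) = ρ' (e x)) (hθ : ∀ x, e (θ x) = θ' (e x)) (c : R)
    (h : ρ' * ρ' - θ' * ρ' + c • (1 : Module.End R W) = 0) :
    ρ * ρ - θ * ρ + c • (1 : Module.End R V) = 0 := by
  refine LinearMap.ext fun x => e.injective ?_
  have h1 := congrArg (fun f : Module.End R W => f (e x)) h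
  simp only [LinearMap.add_apply, LinearMap.sub_apply, Module.End.mul_apply,
      LinearMap.smul_apply, Module.End.one_apply, LinearMap.zero_apply, map_add, map_sub,
      map_smul, map_zero, hρ, hθ] at h1 ⊢
  exact h1

theorem transport_commute {R V W : Type*} [CommRing R] [AddCommGroup V] [Module R V]
    [AddCommGroup W] [Module R W] (e : V ≃ₗ[R] W) (ρ θ : Module.End R V) (ρ' θ' : Module.End R W)
    (hρ : ∀ x, e (ρ x) = ρ' (e x)) (hθ : ∀ x, e (θ x) = θ' (e x)) (h : Commute θ' ρ') :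
    Commute θ ρ := by
  refine LinearMap.ext fun x => e.injective ?_
  rw [Module.End.mul_apply, Module.End.mul_apply, hρ, hθ, hθ, hρ]
  exact congrArg (fun f : Module.End R W => f (e x)) h

theorem transport_one {R V W : Type*} [CommRing R] [AddCommGroup V] [Module R V] [AddCommGroup W]
    [Module R W] (e : V ≃ₗ[R] W) (ρ : Module.End R V) (ρ' : Module.End R W)
    (hρ : ∀ x, e (ρ x) = ρ' (e x)) (h : ρ' = 1) : ρ = 1 := by
  refine LinearMap.ext fun x => e.injective ?_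
  rw [hρ, h]
  rfl

/-- Everything that has to be known about (the torsion of) `J = J₀(N)`. -/
structure TateInput (p : ℕ) [Fact p.Prime] (N : ℕ) [NeZero N] (S : Set ℕ) where
  /-- the primes dividing the level are in `S` -/
  hS : ∀ q : ℕ, q.Prime → q ∣ N → q ∈ S
  /-- Eichler-Shimura -/
  hES : ES N
  /-- the group of points of the Jacobian -/
  J : Type
  [instAddCommGroup : AddCommGroup J]
  [instAction : DistribMulAction G J]
  /-- Hecke operators -/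
  T : ∀ (ℓ : ℕ), ℓ.Prime → ¬ ℓ ∣ N → J →+ J
  T_smul : ∀ (ℓ : ℕ) (hℓ : ℓ.Prime) (hℓN : ¬ ℓ ∣ N) (σ : G) (x : J), (∃ n : ℕ, p ^ n • x = 0) →
    T ℓ hℓ hℓN (σ • x) = σ • T ℓ hℓ hℓN x
  /-- the comparison with homomorphisms -/
  C : Comparison p J (Gamma0 N)
  hecke : ∀ (ℓ : ℕ) (hℓ : ℓ.Prime) (hℓN : ¬ ℓ ∣ N), ℓ ∉ S → ∀ (n : ℕ) (x : tor p J n),
    C.e n ⟨T ℓ hℓ hℓN x, map_mem_tor p _ x.2⟩ = heckeHom hℓ hℓN (ZMod (p ^ n)) (C.e n x)
  mem_iff : ∀ φ, φ ∈ parabolicHoms ℤ_[p] (Gamma0 N) ℤ_[p] ↔ ∀ n, red n φ ∈ Set.range (C.e n)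
  level : ∀ x : J, (∃ n : ℕ, p ^ n • x = 0) → ∃ L : IntermediateField ℚ (AlgebraicClosure ℚ),
    FiniteDimensional ℚ L ∧ ∀ σ : G, (∀ z ∈ L, σ z = z) → σ • x = x
  frobenius : ∀ (ℓ : ℕ) (hℓ : ℓ.Prime) (hℓN : ¬ ℓ ∣ N), ℓ ∉ S → ℓ ≠ p →
    ∀ A : ValuationSubring (AlgebraicClosure ℚ), A.LiesOverPrime ℓ →
      ∀ σ : G, A.IsFrobeniusAt σ ℓ → ∀ x : J, (∃ n : ℕ, p ^ n • x = 0) →
        σ • σ • x - T ℓ hℓ hℓN (σ • x) + ℓ • x = 0
  unramified : ∀ q : ℕ, q.Prime → ¬ q ∣ N → q ≠ p →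
    ∀ A : ValuationSubring (AlgebraicClosure ℚ), A.LiesOverPrime q →
      ∀ σ ∈ A.inertiaSubgroupIn ℚ, ∀ x : J, (∃ n : ℕ, p ^ n • x = 0) → σ • x = x

attribute [instance] TateInput.instAddCommGroup TateInput.instAction

namespace TateInput

variable {p : ℕ} [Fact p.Prime] {N : ℕ} [NeZero N] {S : Set ℕ} (I : TateInput p N S)

/-- The Tate module, as a module of homomorphisms. -/
abbrev Lam (p : ℕ) [Fact p.Prime] (N : ℕ) :=
  parabolicHoms ℤ_[p] (Gamma0 N) ℤ_[p]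

/-- Hecke operators on `Λ` -/
def parH {ℓ : ℕ} (hℓ : ℓ.Prime) (hℓN : ¬ ℓ ∣ N) : Module.End ℤ_[p] (Lam p N) :=
  parHecke ℤ_[p] ℤ_[p] hℓ hℓN

/-- component maps -/
def prj (n : ℕ) : Lam p N →+ tor p I.J n := pr I.C (Lam p N) I.mem_iff n

/-- Galois action on `Λ` -/
def lamRep : G →* Module.End ℤ_[p] (Lam p N) := rep I.C (Lam p N) I.mem_iff G

theorem prj_lamRep (σ : G) (n : ℕ) (φ : Lam p N) :
    (I.prj n (I.lamRep σ φ) : I.J) = σ • (I.prj n φ : I.J) :=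
  pr_rep I.C (Lam p N) I.mem_iff σ n φ

theorem ext_prj {φ ψ : Lam p N} (h : ∀ n, (I.prj n φ : I.J) = I.prj n ψ) : φ = ψ :=
  ext_pr I.C (Lam p N) I.mem_iff h

theorem prj_torsion (n : ℕ) (φ : Lam p N) : p ^ n • (I.prj n φ : I.J) = 0 :=
  (mem_tor p).mp (I.prj n φ).2

theorem prj_parHecke (ℓ : ℕ) (hℓ : ℓ.Prime) (hℓN : ¬ ℓ ∣ N) (hℓS : ℓ ∉ S) (n : ℕ)
    (φ : Lam p N) : (I.prj n (parH hℓ hℓN φ) : I.J) =
      I.T ℓ hℓ hℓN (I.prj n φ) := by
  have h : I.prj n (parH hℓ hℓN φ) =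
      ⟨I.T ℓ hℓ hℓN (I.prj n φ), map_mem_tor p _ (I.prj n φ).2⟩ := by
    refine (pr_eq_iff I.C (Lam p N) I.mem_iff n _ _).mpr ?_
    rw [I.hecke ℓ hℓ hℓN hℓS n]
    have h1 : I.C.e n (I.prj n φ) = red n φ := e_pr I.C (Lam p N) I.mem_iff n φ
    rw [h1]
    exact heckeHom_comp hℓ hℓN ((PadicInt.toZModPow n : ℤ_[p] →+* ZMod (p ^ n)) :
      ℤ_[p] →+ ZMod (p ^ n)) _
  rw [h]

theorem prj_natCast_smul (n : ℕ) (a : ℕ) (φ : Lam p N) :
    (I.prj n ((a : ℤ_[p]) • φ) : I.J) = a • (I.prj n φ : I.J) := by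
  have : (a : ℤ_[p]) • φ = a • φ := Nat.cast_smul_eq_nsmul _ a φ
  rw [this, map_nsmul, AddSubgroup.coe_nsmul]

theorem parHecke_commute (ℓ : ℕ) (hℓ : ℓ.Prime) (hℓN : ¬ ℓ ∣ N) (hℓS : ℓ ∉ S) (σ : G) :
    Commute (parH hℓ hℓN) (I.lamRep σ) := by
  refine LinearMap.ext fun φ => I.ext_prj fun n => ?_
  rw [Module.End.mul_apply, Module.End.mul_apply, I.prj_parHecke ℓ hℓ hℓN hℓS, I.prj_lamRep,
    I.prj_lamRep, I.prj_parHecke ℓ hℓ hℓN hℓS, I.T_smul ℓ hℓ hℓN σ _ ⟨n, I.prj_torsion n φ⟩]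

theorem theta_commute (t : CuspForm.heckeAlgebra N 2 S) (σ : G) :
    Commute (theta I.hES I.hS ℤ_[p] t) (I.lamRep σ) := by
  obtain ⟨x, rfl⟩ := toHecke_surjective I.hS t
  rw [theta_toHecke]
  induction x using FreeAlgebra.induction with
  | grade0 r =>
    rw [AlgHom.commutes]
    exact Algebra.commutes r _
  | grade1 i =>
    rw [actPar, FreeAlgebra.lift_ι_apply]
    exact I.parHecke_commute i.1 i.2.1 i.2.2.1 i.2.2.2 σ
  | mul a b ha hb => rw [map_mul]; exact ha.mul_left hb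
  | add a b ha hb => rw [map_add]; exact ha.add_left hb

theorem lam_frobenius (ℓ : ℕ) (hℓ : ℓ.Prime) (hℓN : ¬ ℓ ∣ N) (hℓS : ℓ ∉ S) (hℓp : ℓ ≠ p)
    (A : ValuationSubring (AlgebraicClosure ℚ)) (hA : A.LiesOverPrime ℓ) (σ : G)
    (hσ : A.IsFrobeniusAt σ ℓ) :
    I.lamRep σ * I.lamRep σ -
      parH hℓ hℓN * I.lamRep σ + (ℓ : ℤ_[p]) • (1 : Module.End ℤ_[p] (Lam p N)) = 0 := by
  refine LinearMap.ext fun φ => I.ext_prj fun n => ?_
  rw [LinearMap.add_apply, LinearMap.sub_apply, map_add, map_sub, AddSubgroup.coe_add,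
    AddSubgroup.coe_sub, Module.End.mul_apply, Module.End.mul_apply, I.prj_parHecke ℓ hℓ hℓN hℓS,
    I.prj_lamRep, I.prj_lamRep, LinearMap.smul_apply, I.prj_natCast_smul, Module.End.one_apply,
    I.frobenius ℓ hℓ hℓN hℓS hℓp A hA σ hσ _ ⟨n, I.prj_torsion n φ⟩, LinearMap.zero_apply, map_zero]
  rfl

theorem lam_unramified (q : ℕ) (hq : q.Prime) (hqN : ¬ q ∣ N) (hqp : q ≠ p)
    (A : ValuationSubring (AlgebraicClosure ℚ)) (hA : A.LiesOverPrime q) (σ : G)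
    (hσ : σ ∈ A.inertiaSubgroupIn ℚ) : I.lamRep σ = 1 := by
  refine LinearMap.ext fun φ => I.ext_prj fun n => ?_
  rw [I.prj_lamRep, I.unramified q hq hqN hqp A hA σ hσ _ ⟨n, I.prj_torsion n φ⟩]
  rfl

omit [NeZero N] in
theorem saturated (ψ : Additive (Gamma0 N) →+ ℤ_[p]) (h : (p : ℤ_[p]) • ψ ∈ Lam p N) :
    ψ ∈ Lam p N := by
  intro γ hγ
  have h1 : (p : ℤ_[p]) • ψ (Additive.ofMul γ) = 0 := h γ hγ
  rw [smul_eq_mul] at h1
  exact (mul_eq_zero.mp h1).resolve_left (by exact_mod_cast (Fact.out : p.Prime).ne_zero)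

theorem finite_tor (n : ℕ) : Finite (tor p I.J n) := by
  obtain ⟨k, g, hg⟩ := exists_evalLin_injective (Gamma0 N)
  have hp : NeZero (p ^ n) := ⟨pow_ne_zero n (Fact.out : p.Prime).ne_zero⟩
  have h1 : Function.Injective (fun x : tor p I.J n => evalLin ℤ (ZMod (p ^ n)) g (I.C.e n x)) :=
    (hg ℤ (ZMod (p ^ n))).comp (I.C.injective n)
  exact Finite.of_injective _ h1

theorem exists_level (n : ℕ) : ∃ L : IntermediateField ℚ (AlgebraicClosure ℚ),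
    FiniteDimensional ℚ L ∧ ∀ σ : G, (∀ z ∈ L, σ z = z) →
      ∀ x : I.J, p ^ n • x = 0 → σ • x = x := by
  have hfin := I.finite_tor n
  have h : ∀ x : tor p I.J n, ∃ L : IntermediateField ℚ (AlgebraicClosure ℚ),
      FiniteDimensional ℚ L ∧ ∀ σ : G, (∀ z ∈ L, σ z = z) → σ • (x : I.J) = x :=
    fun x => I.level x ⟨n, (mem_tor p).mp x.2⟩
  choose L hL h1 using h
  refine ⟨⨆ x, L x, IntermediateField.finiteDimensional_iSup_of_finite, fun σ hσ x hx => ?_⟩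
  exact h1 ⟨x, (mem_tor p).mpr hx⟩ σ fun z hz => hσ z ((le_iSup L ⟨x, (mem_tor p).mpr hx⟩) hz)

theorem lam_continuous (n : ℕ) : ∃ L : IntermediateField ℚ (AlgebraicClosure ℚ),
    FiniteDimensional ℚ L ∧ ∀ σ : G, (∀ z ∈ L, σ z = z) →
      ∀ φ : Lam p N, ∃ ψ : Lam p N, I.lamRep σ φ - φ = ((p : ℤ_[p]) ^ n) • ψ := by
  obtain ⟨L, hL, h1⟩ := I.exists_level n
  refine ⟨L, hL, fun σ hσ φ => ?_⟩
  refine exists_eq_smul_of_pr_eq_zero I.C (Lam p N) I.mem_iff saturated n _ ?_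
  have h2 : (I.prj n (I.lamRep σ φ - φ) : I.J) = 0 := by
    rw [map_sub, AddSubgroup.coe_sub, I.prj_lamRep, h1 σ hσ _ (I.prj_torsion n φ), sub_self]
  exact Subtype.ext h2

/-- the comparison isomorphism -/
def iso (p : ℕ) [Fact p.Prime] (N : ℕ) [NeZero N] :
    ℤ_[p] ⊗[ℤ] parabolicHoms ℤ (Gamma0 N) ℤ ≃ₗ[ℤ_[p]] Lam p N :=
  tensorEquiv ℤ_[p] (Gamma0 N)

theorem iso_baseChange_theta (t : CuspForm.heckeAlgebra N 2 S)
    (x : ℤ_[p] ⊗[ℤ] parabolicHoms ℤ (Gamma0 N) ℤ) :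
    iso p N ((theta I.hES I.hS ℤ t).baseChange ℤ_[p] x) =
      theta I.hES I.hS ℤ_[p] t (iso p N x) := by
  induction x using TensorProduct.induction_on with
  | zero => rw [map_zero, map_zero, map_zero]
  | tmul a φ =>
    rw [LinearMap.baseChange_tmul, iso, tensorEquiv_tmul, tensorEquiv_tmul, map_smul]
    congr 1
    apply Subtype.ext
    symm
    exact theta_natural I.hES I.hS (Int.castAddHom ℤ_[p]) t φ (castPar ℤ_[p] (Gamma0 N) φ) rfl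
  | add x y hx hy => rw [map_add, map_add, map_add, map_add, hx, hy]

/-- Galois action on `ℤ_p ⊗ H` -/
def rho : G →* Module.End ℤ_[p] (ℤ_[p] ⊗[ℤ] parabolicHoms ℤ (Gamma0 N) ℤ) where
  toFun σ := (iso p N).symm.toLinearMap ∘ₗ I.lamRep σ ∘ₗ (iso p N).toLinearMap
  map_one' := by
    refine LinearMap.ext fun x => ?_
    simp
  map_mul' σ τ := by
    refine LinearMap.ext fun x => ?_
    simp

theorem iso_rho (σ : G) (x : ℤ_[p] ⊗[ℤ] parabolicHoms ℤ (Gamma0 N) ℤ) :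
    iso p N (I.rho σ x) = I.lamRep σ (iso p N x) := by
  change iso p N ((iso p N).symm (I.lamRep σ (iso p N x))) = _
  rw [LinearEquiv.apply_symm_apply]

theorem rho_frobenius (ℓ : ℕ) (hℓ : ℓ.Prime) (hℓN : ¬ ℓ ∣ N) (hℓS : ℓ ∉ S) (hℓp : ℓ ≠ p)
    (A : ValuationSubring (AlgebraicClosure ℚ)) (hA : A.LiesOverPrime ℓ) (σ : G)
    (hσ : A.IsFrobeniusAt σ ℓ) :
    I.rho σ * I.rho σ -
      (theta I.hES I.hS ℤ (CuspForm.heckeAlgebra.T hℓ hℓN hℓS)).baseChange ℤ_[p] * I.rho σ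
      + (ℓ : ℤ_[p]) • (1 : Module.End ℤ_[p] (ℤ_[p] ⊗[ℤ] parabolicHoms ℤ (Gamma0 N) ℤ)) = 0 := by
  have h1 := I.lam_frobenius ℓ hℓ hℓN hℓS hℓp A hA σ hσ
  have h2 : theta I.hES I.hS ℤ_[p] (CuspForm.heckeAlgebra.T hℓ hℓN hℓS) = parH hℓ hℓN :=
    theta_T I.hES I.hS ℤ_[p] hℓ hℓN hℓS
  refine transport_quad (iso p N) (I.rho σ) _ (I.lamRep σ) (parH hℓ hℓN) (I.iso_rho σ)
    (fun x => ?_) _ h1
  rw [I.iso_baseChange_theta, h2]

/-- The `HeckeGaloisModule`. -/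
def toModule : HeckeGaloisModule p N S where
  H := parabolicHoms ℤ (Gamma0 N) ℤ
  θ := theta I.hES I.hS ℤ
  θ_injective := theta_injective I.hES I.hS ℤ
  ρ := I.rho
  isAdicContinuous := by
    intro n
    obtain ⟨L, hL, h1⟩ := I.lam_continuous n
    refine ⟨L, hL, fun σ hσ v => ?_⟩
    obtain ⟨ψ, hψ⟩ := h1 σ hσ (iso p N v)
    have h2 : I.rho σ v - v = ((p : ℤ_[p]) ^ n) • (iso p N).symm ψ := by
      apply (iso p N).injective
      rw [map_sub, I.iso_rho, hψ, map_smul, LinearEquiv.apply_symm_apply]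
    rw [h2]
    refine Submodule.smul_mem_smul (Ideal.pow_mem_pow ?_ n) Submodule.mem_top
    rw [PadicInt.maximalIdeal_eq_span_p]
    exact Ideal.mem_span_singleton_self _
  commute t σ := transport_commute (iso p N) (I.rho σ) _ (I.lamRep σ) _ (I.iso_rho σ)
    (I.iso_baseChange_theta t) (I.theta_commute t σ)
  frobenius ℓ hℓ hℓN hℓS hℓp A hA σ hσ := I.rho_frobenius ℓ hℓ hℓN hℓS hℓp A hA σ hσ
  unramified q hq hqN hqp A hA σ hσ := transport_one (iso p N) (I.rho σ) (I.lamRep σ) (I.iso_rho σ)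
    (I.lam_unramified q hq hqN hqp A hA σ hσ)

/-- Component maps `ℤ_p ⊗ H → J`. -/
def comp (n : ℕ) : ℤ_[p] ⊗[ℤ] parabolicHoms ℤ (Gamma0 N) ℤ →+ I.J :=
  ((tor p I.J n).subtype.comp (I.prj n)).comp (iso p N).toLinearMap.toAddMonoidHom

theorem comp_rho (σ : G) (n : ℕ) (x : ℤ_[p] ⊗[ℤ] parabolicHoms ℤ (Gamma0 N) ℤ) :
    I.comp n (I.rho σ x) = σ • I.comp n x := by
  change (I.prj n (iso p N (I.rho σ x)) : I.J) = σ • (I.prj n (iso p N x) : I.J)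
  rw [I.iso_rho, I.prj_lamRep]

theorem ext_comp {x y : ℤ_[p] ⊗[ℤ] parabolicHoms ℤ (Gamma0 N) ℤ}
    (h : ∀ n, I.comp n x = I.comp n y) : x = y :=
  (iso p N).injective (I.ext_prj h)

end TateInput

end Fermat.Agent.Tate
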