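import Fermat.Agent.Tate.Lim
import Mathlib.Algebra.Module.Torsion.Basic

/-!
The Galois action on `Hom(Γ, ℤ_p)` obtained from compatible comparison maps
`J[p ^ n] → Hom(Γ, ℤ / p ^ n)`.
-/

set_option autoImplicit false

namespace Fermat.Agent.Tate

/-- The `p ^ n`-torsion subgroup. -/
abbrev tor (p : ℕ) (J : Type*) [AddCommGroup J] (n : ℕ) : AddSubgroup J :=
  (Submodule.torsionBy ℤ J ((p ^ n : ℕ) : ℤ)).toAddSubgroup

section

variable (p : ℕ) {J : Type*} [AddCommGroup J]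

theorem mem_tor {n : ℕ} {x : J} : x ∈ tor p J n ↔ p ^ n • x = 0 := by
  change x ∈ Submodule.torsionBy ℤ J ((p ^ n : ℕ) : ℤ) ↔ _
  rw [Submodule.mem_torsionBy_iff, natCast_zsmul]

theorem nsmul_mem_tor {n : ℕ} {x : J} (hx : x ∈ tor p J (n + 1)) : p • x ∈ tor p J n := by
  rw [mem_tor] at hx ⊢
  rw [smul_smul, ← pow_succ, hx]

/-- Multiplication by `p`. -/
def mulP (n : ℕ) (x : tor p J (n + 1)) : tor p J n := ⟨p • (x : J), nsmul_mem_tor p x.2⟩

theorem map_mem_tor {J' : Type*} [AddCommGroup J'] (u : J →+ J') {n : ℕ} {x : J}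
    (hx : x ∈ tor p J n) : u x ∈ tor p J' n := by
  rw [mem_tor] at hx ⊢
  rw [← map_nsmul, hx, map_zero]

end

/-- Compatible injective comparison maps `J[p ^ n] → Hom(Γ, ℤ / p ^ n)`. -/
structure Comparison (p : ℕ) (J Γ : Type*) [AddCommGroup J] [Group Γ] where
  /-- the maps -/
  e : ∀ n : ℕ, tor p J n →+ (Additive Γ →+ ZMod (p ^ n))
  injective : ∀ n, Function.Injective (e n)
  compat : ∀ n (x : tor p J (n + 1)),
    e n (mulP p n x) = (step p n : ZMod (p ^ (n + 1)) →+ ZMod (p ^ n)).comp (e (n + 1) x)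

section Main

variable {p : ℕ} [Fact p.Prime] {J Γ : Type*} [AddCommGroup J] [Group Γ]

/-- reduction modulo `p ^ n` -/
noncomputable def red (n : ℕ) (φ : Additive Γ →+ ℤ_[p]) : Additive Γ →+ ZMod (p ^ n) :=
  ((PadicInt.toZModPow n : ℤ_[p] →+* ZMod (p ^ n)) : ℤ_[p] →+ ZMod (p ^ n)).comp φ

theorem red_apply (n : ℕ) (φ : Additive Γ →+ ℤ_[p]) (γ : Additive Γ) :
    red n φ γ = PadicInt.toZModPow n (φ γ) := rfl

theorem red_add (n : ℕ) (φ ψ : Additive Γ →+ ℤ_[p]) : red n (φ + ψ) = red n φ + red n ψ :=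
  AddMonoidHom.ext fun γ => map_add (PadicInt.toZModPow n) (φ γ) (ψ γ)

theorem red_zero (n : ℕ) : red n (0 : Additive Γ →+ ℤ_[p]) = 0 :=
  AddMonoidHom.ext fun _ => map_zero (PadicInt.toZModPow n)

theorem red_smul (n : ℕ) (a : ℤ_[p]) (φ : Additive Γ →+ ℤ_[p]) :
    red n (a • φ) = (PadicInt.toZModPow n a).val • red n φ := by
  have hp : NeZero (p ^ n) := ⟨pow_ne_zero n (Fact.out : p.Prime).ne_zero⟩
  refine AddMonoidHom.ext fun γ => ?_
  rw [red_apply, AddMonoidHom.smul_apply, smul_eq_mul, map_mul, AddMonoidHom.smul_apply,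
    red_apply, nsmul_eq_mul, ZMod.natCast_val, ZMod.cast_id', id]

theorem ext_red {φ ψ : Additive Γ →+ ℤ_[p]} (h : ∀ n, red n φ = red n ψ) : φ = ψ := by
  refine AddMonoidHom.ext fun γ => PadicInt.ext_of_toZModPow.mp fun n => ?_
  exact congrArg (fun f : Additive Γ →+ ZMod (p ^ n) => f γ) (h n)

theorem step_red (n : ℕ) (φ : Additive Γ →+ ℤ_[p]) :
    (step p n : ZMod (p ^ (n + 1)) →+ ZMod (p ^ n)).comp (red (n + 1) φ) = red n φ := by
  exact AddMonoidHom.ext fun γ => step_toZModPow p n (φ γ)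

omit [Fact p.Prime] in
theorem mem_compatible (f : ∀ n, Additive Γ →+ ZMod (p ^ n))
    (hf : ∀ n, (step p n : ZMod (p ^ (n + 1)) →+ ZMod (p ^ n)).comp (f (n + 1)) = f n)
    (γ : Additive Γ) : (fun n => f n γ) ∈ compatible p := fun n =>
  congrArg (fun g : Additive Γ →+ ZMod (p ^ n) => g γ) (hf n)

/-- The limit of a compatible sequence of homomorphisms. -/
noncomputable def limHoms (f : ∀ n, Additive Γ →+ ZMod (p ^ n))
    (hf : ∀ n, (step p n : ZMod (p ^ (n + 1)) →+ ZMod (p ^ n)).comp (f (n + 1)) = f n) :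
    Additive Γ →+ ℤ_[p] where
  toFun γ := limHom p ⟨fun n => f n γ, mem_compatible f hf γ⟩
  map_zero' := by
    refine PadicInt.ext_of_toZModPow.mp fun n => ?_
    rw [toZModPow_limHom]
    exact (map_zero (f n)).trans (map_zero _).symm
  map_add' x y := by
    refine PadicInt.ext_of_toZModPow.mp fun n => ?_
    rw [map_add (PadicInt.toZModPow n), toZModPow_limHom, toZModPow_limHom, toZModPow_limHom]
    exact map_add (f n) x y

theorem red_limHoms (f : ∀ n, Additive Γ →+ ZMod (p ^ n))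
    (hf : ∀ n, (step p n : ZMod (p ^ (n + 1)) →+ ZMod (p ^ n)).comp (f (n + 1)) = f n) (n : ℕ) :
    red n (limHoms f hf) = f n :=
  AddMonoidHom.ext fun _ => toZModPow_limHom p _ n

variable (C : Comparison p J Γ) (Λ : Submodule ℤ_[p] (Additive Γ →+ ℤ_[p]))
  (hΛ : ∀ φ, φ ∈ Λ ↔ ∀ n, red n φ ∈ Set.range (C.e n))

/-- The `n`-th component. -/
noncomputable def pr (n : ℕ) : Λ →+ tor p J n where
  toFun φ := ((hΛ φ).mp φ.2 n).choose
  map_zero' := by
    apply C.injective n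
    rw [((hΛ _).mp (0 : Λ).2 n).choose_spec, map_zero]
    exact red_zero n
  map_add' φ ψ := by
    apply C.injective n
    rw [((hΛ _).mp (φ + ψ : Λ).2 n).choose_spec, map_add, ((hΛ _).mp φ.2 n).choose_spec,
      ((hΛ _).mp ψ.2 n).choose_spec]
    exact red_add n _ _

theorem e_pr (n : ℕ) (φ : Λ) : C.e n (pr C Λ hΛ n φ) = red n φ :=
  ((hΛ φ).mp φ.2 n).choose_spec

theorem pr_eq_iff (n : ℕ) (φ : Λ) (x : tor p J n) : pr C Λ hΛ n φ = x ↔ C.e n x = red n φ := by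
  rw [← e_pr C Λ hΛ n φ]
  exact ⟨fun h => by rw [h], fun h => (C.injective n h).symm⟩

theorem mulP_pr (n : ℕ) (φ : Λ) : mulP p n (pr C Λ hΛ (n + 1) φ) = pr C Λ hΛ n φ := by
  symm
  rw [pr_eq_iff, C.compat, e_pr, step_red]

theorem p_smul_pr (n : ℕ) (φ : Λ) : p • (pr C Λ hΛ (n + 1) φ : J) = pr C Λ hΛ n φ :=
  congrArg Subtype.val (mulP_pr C Λ hΛ n φ)

theorem pow_smul_pr (n m : ℕ) (φ : Λ) : p ^ m • (pr C Λ hΛ (n + m) φ : J) = pr C Λ hΛ n φ := by
  induction m with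
  | zero => simp
  | succ m ih => rw [pow_succ, mul_smul, ← add_assoc, p_smul_pr, ih]

theorem ext_pr {φ ψ : Λ} (h : ∀ n, (pr C Λ hΛ n φ : J) = pr C Λ hΛ n ψ) : φ = ψ := by
  apply Subtype.ext
  refine ext_red fun n => ?_
  rw [← e_pr C Λ hΛ, ← e_pr C Λ hΛ, Subtype.ext (h n)]

theorem pr_smul (n : ℕ) (a : ℤ_[p]) (φ : Λ) :
    pr C Λ hΛ n (a • φ) = (PadicInt.toZModPow n a).val • pr C Λ hΛ n φ := by
  rw [pr_eq_iff, map_nsmul, e_pr]
  exact (red_smul n a (φ : Additive Γ →+ ℤ_[p])).symm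

/-- From a compatible sequence in the torsion of `J` to `Λ`. -/
theorem exists_lim (x : ∀ n, tor p J n) (hx : ∀ n, mulP p n (x (n + 1)) = x n) :
    ∃ φ : Λ, ∀ n, pr C Λ hΛ n φ = x n := by
  let f : ∀ n, Additive Γ →+ ZMod (p ^ n) := fun n => C.e n (x n)
  have hf : ∀ n, (step p n : ZMod (p ^ (n + 1)) →+ ZMod (p ^ n)).comp (f (n + 1)) = f n := by
    intro n
    change _ = C.e n (x n)
    rw [← hx n, C.compat]
  refine ⟨⟨limHoms f hf, (hΛ _).mpr fun n => ⟨x n, ?_⟩⟩, fun n => ?_⟩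
  · rw [red_limHoms]
  · rw [pr_eq_iff]
    exact (red_limHoms f hf n).symm

/-- An additive endomorphism of `J` induces a `ℤ_p`-linear endomorphism of `Λ`. -/
noncomputable def indFun (u : J →+ J) (φ : Λ) : Λ :=
  (exists_lim C Λ hΛ (fun n => ⟨u (pr C Λ hΛ n φ), map_mem_tor p u (pr C Λ hΛ n φ).2⟩) (fun n =>
    Subtype.ext (by
      change p • u (pr C Λ hΛ (n + 1) φ : J) = u (pr C Λ hΛ n φ)
      rw [← map_nsmul, p_smul_pr]))).choose

theorem pr_indFun (u : J →+ J) (n : ℕ) (φ : Λ) :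
    (pr C Λ hΛ n (indFun C Λ hΛ u φ) : J) = u (pr C Λ hΛ n φ) :=
  congrArg Subtype.val ((exists_lim C Λ hΛ
    (fun n => ⟨u (pr C Λ hΛ n φ), map_mem_tor p u (pr C Λ hΛ n φ).2⟩) (fun n =>
    Subtype.ext (by
      change p • u (pr C Λ hΛ (n + 1) φ : J) = u (pr C Λ hΛ n φ)
      rw [← map_nsmul, p_smul_pr]))).choose_spec n)

/-- An additive endomorphism of `J` induces a `ℤ_p`-linear endomorphism of `Λ`. -/
noncomputable def ind (u : J →+ J) : Module.End ℤ_[p] Λ where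
  toFun := indFun C Λ hΛ u
  map_add' φ ψ := by
    refine ext_pr C Λ hΛ fun n => ?_
    rw [pr_indFun, map_add, map_add, AddSubgroup.coe_add, map_add, AddSubgroup.coe_add,
      pr_indFun, pr_indFun]
  map_smul' a φ := by
    refine ext_pr C Λ hΛ fun n => ?_
    rw [pr_indFun, RingHom.id_apply, pr_smul, pr_smul, AddSubgroup.coe_nsmul, map_nsmul,
      AddSubgroup.coe_nsmul, pr_indFun]

theorem pr_ind (u : J →+ J) (n : ℕ) (φ : Λ) :
    (pr C Λ hΛ n (ind C Λ hΛ u φ) : J) = u (pr C Λ hΛ n φ) := pr_indFun C Λ hΛ u n φ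

/-- The induced action of a group acting on `J`. -/
noncomputable def rep (Gr : Type*) [Group Gr] [DistribMulAction Gr J] :
    Gr →* Module.End ℤ_[p] Λ where
  toFun g := ind C Λ hΛ (DistribSMul.toAddMonoidHom J g)
  map_one' := by
    refine LinearMap.ext fun φ => ext_pr C Λ hΛ fun n => ?_
    rw [pr_ind, Module.End.one_apply]
    exact one_smul _ _
  map_mul' g h := by
    refine LinearMap.ext fun φ => ext_pr C Λ hΛ fun n => ?_
    rw [pr_ind, Module.End.mul_apply, pr_ind, pr_ind]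
    exact mul_smul _ _ _

theorem pr_rep {Gr : Type*} [Group Gr] [DistribMulAction Gr J] (g : Gr) (n : ℕ) (φ : Λ) :
    (pr C Λ hΛ n (rep C Λ hΛ Gr g φ) : J) = g • (pr C Λ hΛ n φ : J) := pr_ind C Λ hΛ _ n φ

/-- An element with trivial `n`-th component is divisible by `p ^ n`, if `Λ` is saturated. -/
theorem exists_eq_smul_of_pr_eq_zero (hsat : ∀ ψ, (p : ℤ_[p]) • ψ ∈ Λ → ψ ∈ Λ) (n : ℕ) (φ : Λ)
    (h : pr C Λ hΛ n φ = 0) : ∃ ψ : Λ, φ = ((p : ℤ_[p]) ^ n) • ψ := by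
  have h1 : red n (φ : Additive Γ →+ ℤ_[p]) = 0 := by
    rw [← e_pr C Λ hΛ, h, map_zero]
  have hp0 : ((p : ℤ_[p]) ^ n) ≠ 0 := pow_ne_zero n (by exact_mod_cast (Fact.out : p.Prime).ne_zero)
  have h2 : ∀ γ, ∃ y : ℤ_[p], (φ : Additive Γ →+ ℤ_[p]) γ = (p : ℤ_[p]) ^ n * y := by
    intro γ
    have h3 : PadicInt.toZModPow n ((φ : Additive Γ →+ ℤ_[p]) γ) = 0 :=
      congrArg (fun f : Additive Γ →+ ZMod (p ^ n) => f γ) h1
    rw [← RingHom.mem_ker, PadicInt.ker_toZModPow, Ideal.mem_span_singleton] at h3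
    exact h3
  choose y hy using h2
  let ψ : Additive Γ →+ ℤ_[p] :=
    { toFun := y
      map_zero' := by
        have := hy 0
        rw [map_zero] at this
        exact (mul_eq_zero.mp this.symm).resolve_left hp0
      map_add' := fun a b => by
        apply mul_left_cancel₀ hp0
        rw [mul_add, ← hy, ← hy, ← hy, map_add] }
  have hψ : (φ : Additive Γ →+ ℤ_[p]) = ((p : ℤ_[p]) ^ n) • ψ :=
    AddMonoidHom.ext fun γ => hy γ
  have hmem : ∀ m : ℕ, ∀ χ : Additive Γ →+ ℤ_[p], ((p : ℤ_[p]) ^ m) • χ ∈ Λ → χ ∈ Λ := by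
    intro m
    induction m with
    | zero => intro χ hχ; simpa using hχ
    | succ m ih =>
      intro χ hχ
      apply ih
      apply hsat
      rw [smul_smul, ← pow_succ']
      exact hχ
  exact ⟨⟨ψ, hmem n ψ (hψ ▸ φ.2)⟩, Subtype.ext hψ⟩

end Main

end Fermat.Agent.Tate
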