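import Mathlib.NumberTheory.Padics.RingHoms

/-!
Limits of compatible sequences in `ℤ / p ^ n`.
-/

set_option autoImplicit false

namespace Fermat.Agent.Tate

variable (p : ℕ) [Fact p.Prime]

/-- The reduction map `ZMod (p ^ (n + 1)) → ZMod (p ^ n)`. -/
def step (n : ℕ) : ZMod (p ^ (n + 1)) →+* ZMod (p ^ n) :=
  ZMod.castHom (pow_dvd_pow p n.le_succ) (ZMod (p ^ n))

theorem step_toZModPow (n : ℕ) (x : ℤ_[p]) :
    step p n (PadicInt.toZModPow (n + 1) x) = PadicInt.toZModPow n x :=
  congrArg (fun f : ℤ_[p] →+* ZMod (p ^ n) => f x)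
    (PadicInt.zmod_cast_comp_toZModPow n (n + 1) n.le_succ)

/-- Compatible sequences. -/
def compatible : Subring (∀ n, ZMod (p ^ n)) where
  carrier := {f | ∀ n, step p n (f (n + 1)) = f n}
  mul_mem' := by
    intro a b ha hb n
    rw [Pi.mul_apply, map_mul, ha n, hb n, Pi.mul_apply]
  one_mem' := by
    intro n
    rw [Pi.one_apply, map_one, Pi.one_apply]
  add_mem' := by
    intro a b ha hb n
    rw [Pi.add_apply, map_add, ha n, hb n, Pi.add_apply]
  zero_mem' := by
    intro n
    rw [Pi.zero_apply, map_zero, Pi.zero_apply]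
  neg_mem' := by
    intro a ha n
    rw [Pi.neg_apply, map_neg, ha n, Pi.neg_apply]

omit [Fact p.Prime] in
theorem compatible_le (f : compatible p) {m n : ℕ} (h : m ≤ n) :
    ZMod.castHom (pow_dvd_pow p h) (ZMod (p ^ m)) (f.1 n) = f.1 m := by
  induction n, h using Nat.le_induction with
  | base =>
    have : ZMod.castHom (dvd_refl (p ^ m)) (ZMod (p ^ m)) = RingHom.id _ := Subsingleton.elim _ _
    rw [this, RingHom.id_apply]
  | succ n h ih =>
    have h1 : ZMod.castHom (pow_dvd_pow p (h.trans n.le_succ)) (ZMod (p ^ m)) =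
        (ZMod.castHom (pow_dvd_pow p h) (ZMod (p ^ m))).comp (step p n) := Subsingleton.elim _ _
    rw [← ih, ← f.2 n]
    exact congrArg (fun g : ZMod (p ^ (n + 1)) →+* ZMod (p ^ m) => g (f.1 (n + 1))) h1

/-- The limit. -/
noncomputable def limHom : compatible p →+* ℤ_[p] :=
  PadicInt.lift (f := fun n => (Pi.evalRingHom (fun n => ZMod (p ^ n)) n).comp
    (compatible p).subtype) (by
      intro m n h
      refine RingHom.ext fun f => ?_
      exact compatible_le p f h)

theorem toZModPow_limHom (f : compatible p) (n : ℕ) :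
    PadicInt.toZModPow n (limHom p f) = f.1 n :=
  congrArg (fun g : compatible p →+* ZMod (p ^ n) => g f) (PadicInt.lift_spec _ n)

end Fermat.Agent.Tate
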